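/-
Cluster A/B bridge, chain step (3) TRANSFER (helper35): abstract lemmas (Mathlib only).

* `F3T.le_of_index_lt`     : index count.  `H_M ≤ K' ≤ H_N`, `t ∈ K'` with `t ^ i ∈ H_M → r ∣ i`
                             and `[G : H_M] < 2 r [G : H_N]` force `H_N ≤ K'`.
* `F3T.map_eq_of_pow_eq`   : valuation argument.  If `σ` preserves a valuation `w` with residue
                             field `K` (algebraically closed), `σ (z ^ n) = z ^ n`, and there is a
                             `σ`-fixed `t` with `w t = w z`, then `σ z = z`.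
-/
import Mathlib

set_option autoImplicit false

namespace Fermat.Agent.F3T

open scoped WithZero

section Index

variable {G : Type*} [Group G]

/-- Index count: a subgroup `K'` between `H_M` and `H_N` which contains an element `t` whose
powers meet `H_M` only in multiples of `r` is all of `H_N`, provided
`[G : H_M] < 2 r [G : H_N]`. -/
theorem le_of_index_lt (HM HN K' : Subgroup G) (h1 : HM ≤ K') (h2 : K' ≤ HN)
    (hfin : HM.index ≠ 0) (t : G) (ht : t ∈ K') (r : ℕ)
    (hpow : ∀ i : ℤ, t ^ i ∈ HM → (r : ℤ) ∣ i)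
    (hlt : HM.index < 2 * r * HN.index) : HN ≤ K' := by
  classical
  have e1 : HM.relIndex K' * K'.index = HM.index := Subgroup.relIndex_mul_index h1
  have e2 : K'.relIndex HN * HN.index = K'.index := Subgroup.relIndex_mul_index h2
  have hK'idx : K'.index ≠ 0 := by
    intro h0
    rw [h0, mul_zero] at e1
    exact hfin e1.symm
  have hrel : HM.relIndex K' ≠ 0 := by
    intro h0
    rw [h0, zero_mul] at e1
    exact hfin e1.symm
  have hrelN : K'.relIndex HN ≠ 0 := by
    intro h0
    rw [h0, zero_mul] at e2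
    exact hK'idx e2.symm
  have hHN : HN.index ≠ 0 := by
    intro h0
    rw [h0, mul_zero] at e2
    exact hK'idx e2.symm
  -- the lower bound `r ≤ [K' : H_M]`
  have hge : r ≤ HM.relIndex K' := by
    have : Finite (K' ⧸ HM.subgroupOf K') := by
      apply Nat.finite_of_card_ne_zero
      exact hrel
    let f : Fin r → K' ⧸ HM.subgroupOf K' := fun i =>
      QuotientGroup.mk (⟨t ^ (i : ℕ), Subgroup.pow_mem K' ht _⟩ : K')
    have hf : Function.Injective f := by
      intro i j hij
      have hij' := QuotientGroup.eq.mp hij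
      rw [Subgroup.mem_subgroupOf] at hij'
      have h3 : t ^ ((j : ℤ) - (i : ℤ)) ∈ HM := by
        have : ((⟨t ^ (i : ℕ), Subgroup.pow_mem K' ht _⟩ : K')⁻¹ *
            (⟨t ^ (j : ℕ), Subgroup.pow_mem K' ht _⟩ : K') : K').1 = t ^ ((j : ℤ) - (i : ℤ)) := by
          show (t ^ (i : ℕ))⁻¹ * t ^ (j : ℕ) = _
          rw [zpow_sub, zpow_natCast, zpow_natCast]
          have hc : Commute (t ^ (j : ℕ)) ((t ^ (i : ℕ))⁻¹) :=
            ((Commute.refl t).pow_pow _ _).inv_right
          rw [hc.eq]
        rw [← this]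
        exact hij'
      have h4 := hpow _ h3
      have hi := i.2
      have hj := j.2
      have h5 : (j : ℤ) - (i : ℤ) = 0 := by
        apply Int.eq_zero_of_abs_lt_dvd h4
        rw [abs_lt]
        constructor <;> omega
      apply Fin.ext
      omega
    have := Nat.card_le_card_of_injective f hf
    simpa [Subgroup.relIndex, Subgroup.index] using this
  -- the count
  have hone : K'.relIndex HN = 1 := by
    have h3 : r * (K'.relIndex HN * HN.index) ≤ HM.index := by
      rw [← e1, e2]
      exact Nat.mul_le_mul_right _ hge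
    have h4 : r * (K'.relIndex HN * HN.index) < r * (2 * HN.index) := by
      calc r * (K'.relIndex HN * HN.index) ≤ HM.index := h3
        _ < 2 * r * HN.index := hlt
        _ = r * (2 * HN.index) := by ring
    have h5 : K'.relIndex HN * HN.index < 2 * HN.index := Nat.lt_of_mul_lt_mul_left h4
    have h6 : K'.relIndex HN < 2 := Nat.lt_of_mul_lt_mul_right h5
    omega
  exact Subgroup.relIndex_eq_one.mp hone

end Index

section Valuation

variable {K L : Type*} [Field K] [IsAlgClosed K] [Field L] [Algebra K L]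

/-- An element of `L` with `ξ ^ n = 1` (`n > 0`) is a constant. -/
theorem exists_algebraMap_eq_of_pow_eq_one {ξ : L} {n : ℕ} (hn : 0 < n) (hξ : ξ ^ n = 1) :
    ∃ c : K, algebraMap K L c = ξ := by
  have hint : IsIntegral K ξ := by
    refine ⟨Polynomial.X ^ n - 1, Polynomial.monic_X_pow_sub_C (1 : K) hn.ne', ?_⟩
    simp [hξ]
  have hdeg : (minpoly K ξ).degree = 1 :=
    IsAlgClosed.degree_eq_one_of_irreducible K (minpoly.irreducible hint)
  exact minpoly.mem_range_of_degree_eq_one K ξ hdeg

/-- The valuation argument of the transfer. -/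
theorem map_eq_of_pow_eq (w : Valuation L ℤᵐ⁰)
    (hwK : ∀ c : K, c ≠ 0 → w (algebraMap K L c) = 1)
    (hres : ∀ x : L, w x ≤ 1 → ∃ c : K, w (x - algebraMap K L c) < 1)
    (σ : L →+* L) (hσK : ∀ c : K, σ (algebraMap K L c) = algebraMap K L c)
    (hσw : ∀ x : L, w (σ x) = w x)
    (z t : L) (n : ℕ) (hn : 0 < n) (ht0 : t ≠ 0) (hσt : σ t = t) (hσz : σ (z ^ n) = z ^ n)
    (hwz : w z = w t) : σ z = z := by
  have hwt0 : w t ≠ 0 := (Valuation.ne_zero_iff w).mpr ht0
  have hz0 : z ≠ 0 := by
    intro h
    rw [h, map_zero] at hwz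
    exact hwt0 hwz.symm
  set s : L := z / t with hs
  have hs0 : s ≠ 0 := div_ne_zero hz0 ht0
  have hws : w s = 1 := by
    rw [hs, map_div₀, hwz, div_self hwt0]
  have hσs : σ (s ^ n) = s ^ n := by
    rw [hs, div_pow, map_div₀, hσz, map_pow, hσt]
  set ξ : L := σ s / s with hξ
  have hσs0 : σ s ≠ 0 := by
    intro h
    have := hσw s
    rw [h, map_zero, hws] at this
    exact zero_ne_one this
  have hξn : ξ ^ n = 1 := by
    rw [hξ, div_pow, ← map_pow, hσs, div_self (pow_ne_zero n hs0)]
  obtain ⟨c0, hc0⟩ := exists_algebraMap_eq_of_pow_eq_one (K := K) hn hξn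
  have hwξ : w ξ = 1 := by
    have h1 : w ξ ^ n = 1 := by rw [← map_pow, hξn, map_one]
    exact (pow_eq_one_iff.mp h1).resolve_right hn.ne'
  obtain ⟨c, hc⟩ := hres s hws.le
  have hcne : c ≠ 0 := by
    intro h
    rw [h, map_zero, sub_zero, hws] at hc
    exact lt_irrefl _ hc
  have h1 : w (σ s - algebraMap K L c) < 1 := by
    have : σ s - algebraMap K L c = σ (s - algebraMap K L c) := by
      rw [map_sub, hσK]
    rw [this, hσw]
    exact hc
  have hσs' : σ s = ξ * s := by
    rw [hξ, div_mul_cancel₀ _ hs0]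
  have h2 : w (ξ * (s - algebraMap K L c)) < 1 := by
    rw [map_mul, hwξ, one_mul]
    exact hc
  have h3 : (ξ - 1) * algebraMap K L c =
      (σ s - algebraMap K L c) - ξ * (s - algebraMap K L c) := by
    rw [hσs']
    ring
  have h4 : w ((ξ - 1) * algebraMap K L c) < 1 := by
    rw [h3]
    exact lt_of_le_of_lt (Valuation.map_sub _ _ _) (max_lt h1 h2)
  rw [map_mul, hwK c hcne, mul_one] at h4
  have hξ1 : ξ = 1 := by
    by_contra hne
    have hc1 : c0 - 1 ≠ 0 := by
      intro h
      apply hne
      rw [← hc0, sub_eq_zero.mp h, map_one]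
    have := hwK (c0 - 1) hc1
    rw [map_sub, map_one, hc0] at this
    rw [this] at h4
    exact lt_irrefl _ h4
  have hfin : σ s = s := by rw [hσs', hξ1, one_mul]
  have hz : z = s * t := by rw [hs, div_mul_cancel₀ _ ht0]
  rw [hz, map_mul, hfin, hσt]

end Valuation

end Fermat.Agent.F3T
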