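/-
Cluster A/B bridge, chain step (3) TRANSFER (helper35): interface.  Definitions only.

`TransferCore N r`: characteristic-zero statement.  If `g ∈ F_N` has divisor divisible by `n` and
`h ∈ F_{rN}` satisfies `h ^ n = g`, then `h ∈ F_N`.  (Fields as subfields of `ℚ̄((q))`.)
Proved in `Transfer/Core.lean` when `ψ(rN) < 2 r ψ(N)` (e.g. `r` a prime power).
-/
import Fermat.Prelude.Def_ModularCurve_ArithmeticGalois

set_option autoImplicit false

noncomputable section

namespace Fermat.Agent.F3T

open ModularCurve AlgebraicCurve

/-- Characteristic-zero core of the transfer from level `r * N` to level `N`: an `n`-th root in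
`F_{rN}` of an element of `F_N` whose divisor is divisible by `n` lies in `F_N`. -/
def TransferCore (N r : ℕ) [NeZero N] [NeZero r] : Prop :=
  ∀ (n : ℕ), 0 < n → ∀ g : modularFunctionFieldBar N, g ≠ 0 →
    (∀ P : Place (AlgebraicClosure ℚ) (modularFunctionFieldBar N), (n : ℤ) ∣ P.ord g) →
    ∀ h : modularFunctionFieldBar (r * N),
      (h : LaurentSeries (AlgebraicClosure ℚ)) ^ n = (g : LaurentSeries (AlgebraicClosure ℚ)) →
      ∃ h' : modularFunctionFieldBar N,
        (h' : LaurentSeries (AlgebraicClosure ℚ)) = (h : LaurentSeries (AlgebraicClosure ℚ))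

end Fermat.Agent.F3T
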