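/-
Cluster A/B bridge, chain step (3) TRANSFER (helper35): a nontrivial `ℤ`-valued valuation of a
function field which is trivial on the constants is (a positive multiple of) the order function of
a place.
-/
import Mathlib
import Fermat.Prelude.Def_AlgebraicCurve_CanonicalDivisor
import Fermat.Agent.F3.Dict.PlaceVal

set_option autoImplicit false
set_option linter.style.haveILetI false

noncomputable section

namespace Fermat.Agent.F3T

open AlgebraicCurve
open scoped WithZero

variable {K F : Type*} [Field K] [Field F] [Algebra K F]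

theorem isCyclic_units_withZero_int : IsCyclic (ℤᵐ⁰)ˣ :=
  isCyclic_of_surjective (WithZero.unitsWithZeroEquiv (α := Multiplicative ℤ)).symm
    (WithZero.unitsWithZeroEquiv (α := Multiplicative ℤ)).symm.surjective

theorem mem_valueGroup_mk0 (u : Valuation F ℤᵐ⁰) {x : F} (hx : x ≠ 0) :
    Units.mk0 (u x) ((Valuation.ne_zero_iff u).mpr hx) ∈
      MonoidWithZeroHom.valueGroup (.ofClass u) := by
  apply MonoidWithZeroHom.mem_valueGroup
  exact ⟨x, rfl⟩

/-- The place of a nontrivial `ℤ`-valued valuation which is `≤ 1` on the constants. -/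
def placeOfValuation (u : Valuation F ℤᵐ⁰) (hK : ∀ a : K, u (algebraMap K F a) ≤ 1)
    (hnt : ∃ x : F, x ≠ 0 ∧ u x ≠ 1) : Place K F where
  toValuationSubring := u.valuationSubring
  algebraMap_mem' := fun a => (Valuation.mem_valuationSubring_iff u _).mpr (hK a)
  ne_top' := by
    obtain ⟨x, hx0, hx1⟩ := hnt
    intro htop
    have h1 : x ∈ u.valuationSubring := by rw [htop]; exact ValuationSubring.mem_top x
    have h2 : x⁻¹ ∈ u.valuationSubring := by rw [htop]; exact ValuationSubring.mem_top _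
    rw [Valuation.mem_valuationSubring_iff] at h1 h2
    rw [map_inv₀] at h2
    have hux0 : u x ≠ 0 := (Valuation.ne_zero_iff u).mpr hx0
    have h3 : 1 ≤ u x := by
      have := (inv_le_one₀ (zero_lt_iff.mpr hux0)).mp h2
      exact this
    exact hx1 (le_antisymm h1 h3)
  isPrincipalIdealRing' := by
    haveI : IsCyclic (ℤᵐ⁰)ˣ := isCyclic_units_withZero_int
    haveI : IsCyclic (MonoidWithZeroHom.valueGroup (.ofClass u)) := inferInstance
    haveI : Nontrivial (MonoidWithZeroHom.valueGroup (.ofClass u)) := by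
      obtain ⟨x, hx0, hx1⟩ := hnt
      rw [Subgroup.nontrivial_iff_exists_ne_one]
      refine ⟨Units.mk0 (u x) ((Valuation.ne_zero_iff u).mpr hx0), mem_valueGroup_mk0 u hx0, ?_⟩
      intro h
      apply hx1
      have := congrArg Units.val h
      simpa using this
    exact Valuation.valuationSubring_isPrincipalIdealRing u

theorem placeOfValuation_toValuationSubring (u : Valuation F ℤᵐ⁰)
    (hK : ∀ a : K, u (algebraMap K F a) ≤ 1) (hnt : ∃ x : F, x ≠ 0 ∧ u x ≠ 1) :
    (placeOfValuation u hK hnt).toValuationSubring = u.valuationSubring := rfl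

/-- `-log u = e · ord` for the place of `u`. -/
theorem exists_mul_ord_placeOfValuation (u : Valuation F ℤᵐ⁰)
    (hK : ∀ a : K, u (algebraMap K F a) ≤ 1) (hnt : ∃ x : F, x ≠ 0 ∧ u x ≠ 1) :
    ∃ e : ℕ, 0 < e ∧ ∀ x : F, x ≠ 0 →
      -WithZero.log (u x) = (e : ℤ) * (placeOfValuation u hK hnt).ord x :=
  Fermat.Agent.F3Places.exists_mul_ord_eq_of_valuation' (placeOfValuation u hK hnt) u
    (fun x hx => (Valuation.mem_valuationSubring_iff u x).mp hx) hnt

/-- If `n ∣ ord_P g` for every place `P`, then for every nontrivial `ℤ`-valued valuation `u`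
trivial on the constants there is `x ≠ 0` with `u x ^ n = u g`. -/
theorem exists_valuation_pow_eq (u : Valuation F ℤᵐ⁰)
    (hK : ∀ a : K, u (algebraMap K F a) ≤ 1) (hnt : ∃ x : F, x ≠ 0 ∧ u x ≠ 1)
    (n : ℕ) (g : F) (hg : g ≠ 0) (hord : ∀ P : Place K F, (n : ℤ) ∣ P.ord g) :
    ∃ x : F, x ≠ 0 ∧ u x ^ n = u g := by
  obtain ⟨e, -, he⟩ := exists_mul_ord_placeOfValuation u hK hnt
  set P := placeOfValuation u hK hnt with hP
  obtain ⟨k, hk⟩ := hord P
  obtain ⟨π, hπ⟩ := IsDiscreteValuationRing.exists_irreducible P.toValuationSubring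
  have hπ0 : (π : F) ≠ 0 := fun h => hπ.ne_zero (Subtype.ext h)
  have hx0 : (π : F) ^ k ≠ 0 := zpow_ne_zero k hπ0
  refine ⟨(π : F) ^ k, hx0, ?_⟩
  have h1 := he _ hx0
  have h2 := he g hg
  rw [P.ord_zpow, P.ord_coe_irreducible hπ, mul_one] at h1
  rw [hk] at h2
  have hux0 : u ((π : F) ^ k) ≠ 0 := (Valuation.ne_zero_iff u).mpr hx0
  have hug0 : u g ≠ 0 := (Valuation.ne_zero_iff u).mpr hg
  have h3 : WithZero.log (u ((π : F) ^ k) ^ n) = WithZero.log (u g) := by
    rw [WithZero.log_pow]
    have : WithZero.log (u g) = -((e : ℤ) * ((n : ℤ) * k)) := by omega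
    rw [this]
    have h1' : WithZero.log (u ((π : F) ^ k)) = -((e : ℤ) * k) := by omega
    rw [h1']
    simp only [nsmul_eq_mul]
    ring
  rw [← WithZero.exp_log (pow_ne_zero n hux0), ← WithZero.exp_log hug0, h3]

end Fermat.Agent.F3T
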