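/-
Cluster A/B bridge, chain step (3) TRANSFER (helper35): the characteristic-zero core.

`transferCore N r : ψ(rN) < 2 r ψ(N) → TransferCore N r`.

Proof.  `L = LL (rN)` (S24's field of modular functions of level `rN`, with `SL(2,ℤ)` acting),
`φ_N, φ_M` the embeddings of `F_N ⊂ F_M` (`M = rN`).  For `y = φ_M h` the stabiliser of `y`
contains `Γ₀(M)` and the element `S T^N S⁻¹` of `Γ₀(N)` (valuation argument at the cusp `0`,
`F3T.map_eq_of_pow_eq`); an index count (`F3T.le_of_index_lt`) shows that it contains `Γ₀(N)`,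
and Galois theory gives `y ∈ φ_N (F_N)`.
-/
import Mathlib
import Fermat.Agent.F3.Transfer.Defs
import Fermat.Agent.F3.Transfer.Abstract
import Fermat.Agent.F3.Transfer.Place
import Fermat.Agent.S24.GlobalDatum
import Fermat.Agent.S24.InvariantsFinal
import Fermat.Agent.S20.Cosets

set_option autoImplicit false
set_option linter.style.haveILetI false

noncomputable section

namespace Fermat.Agent.F3T

open Fermat.Agent.S24 Fermat.Agent.S24.EmbFHom ModularCurve AlgebraicCurve
open scoped MatrixGroups WithZero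

/-! ### The valuation at `∞` of `LL M`, through expansions -/

/-- The order at `∞` (in `u = exp(2πiτ/M)`) as a valuation of `LL M`. -/
def wInf (M : ℕ) [NeZero M] : Valuation (LL M) ℤᵐ⁰ :=
  (Valued.v : Valuation (LaurentSeries Kbar) ℤᵐ⁰).comap (expLL M).toRingHom

theorem wInf_apply (M : ℕ) [NeZero M] (x : LL M) :
    wInf M x = (Valued.v (expLL M x) : ℤᵐ⁰) := rfl

theorem valued_algebraMap_eq_one {a : Kbar} (ha : a ≠ 0) :
    (Valued.v (algebraMap Kbar (LaurentSeries Kbar) a) : ℤᵐ⁰) = 1 := by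
  have h := laurent_valuation_eq_of_coeff (f := algebraMap Kbar (LaurentSeries Kbar) a) (D := 0)
    (by simpa [LaurentSeries.algebraMap_apply] using ha)
    (fun n hn => by
      rw [LaurentSeries.algebraMap_apply]
      show (HahnSeries.single (0 : ℤ) a).coeff n = 0
      exact HahnSeries.coeff_single_of_ne hn.ne)
  simpa using h

theorem wInf_algebraMap (M : ℕ) [NeZero M] {a : Kbar} (ha : a ≠ 0) :
    wInf M (algebraMap Kbar (LL M) a) = 1 := by
  rw [wInf_apply, AlgHom.commutes]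
  exact valued_algebraMap_eq_one ha

theorem wInf_eq_valInfLL (M : ℕ) [NeZero M] (x : LL M) :
    wInf M x = valInfLL (fun f hf => exists_hasExp_of_mem_gens M hf) x := by
  obtain ⟨a, b, hb, rfl⟩ := IsFractionRing.div_surjective (A := AL M) x
  have key : ∀ f : AL M, wInf M (algebraMap (AL M) (LL M) f) =
      valInfLL (fun f hf => exists_hasExp_of_mem_gens M hf) (algebraMap (AL M) (LL M) f) := by
    intro f
    rw [valInfLL_algebraMap, valInfAL_apply, wInf_apply, expLL_algebraMap,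
      Fermat.Agent.S24.expAL_eq _ (EmbFHom.hasExp_expAL M f)]
  rw [map_div₀, map_div₀, key, key]

theorem wInf_T_smul (M : ℕ) [NeZero M] (x : LL M) :
    wInf M (ModularGroup.T • x) = wInf M x := by
  rw [wInf_eq_valInfLL, wInf_eq_valInfLL, valInfLL_T_smul]

theorem wInf_T_pow_smul (M : ℕ) [NeZero M] (k : ℕ) (x : LL M) :
    wInf M ((ModularGroup.T ^ k) • x) = wInf M x := by
  induction k with
  | zero => rw [pow_zero, one_smul]
  | succ k ih => rw [pow_succ', mul_smul, wInf_T_smul, ih]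

/-- The residue field of `wInf` is `Kbar`. -/
theorem wInf_residue (M : ℕ) [NeZero M] (x : LL M) (hx : wInf M x ≤ 1) :
    ∃ c : Kbar, wInf M (x - algebraMap Kbar (LL M) c) < 1 := by
  refine ⟨(expLL M x).coeff 0, ?_⟩
  rw [wInf_apply, map_sub, AlgHom.commutes]
  rw [wInf_apply] at hx
  have h0 : ∀ n : ℤ, n < 0 → (expLL M x).coeff n = 0 := by
    have hx' : (Valued.v (expLL M x) : ℤᵐ⁰) ≤ WithZero.exp (-(0 : ℤ)) := by
      simpa using hx
    exact (LaurentSeries.valuation_le_iff_coeff_lt_eq_zero Kbar).mp hx'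
  have h1 : (Valued.v (expLL M x - algebraMap Kbar (LaurentSeries Kbar) ((expLL M x).coeff 0)) :
      ℤᵐ⁰) ≤ WithZero.exp (-(1 : ℤ)) := by
    rw [LaurentSeries.valuation_le_iff_coeff_lt_eq_zero Kbar]
    intro n hn
    rw [HahnSeries.coeff_sub, LaurentSeries.algebraMap_apply]
    show (expLL M x).coeff n - (HahnSeries.single (0 : ℤ) ((expLL M x).coeff 0)).coeff n = 0
    have hn' : n ≤ 0 := by omega
    rcases lt_or_eq_of_le hn' with h | h
    · rw [h0 n h, HahnSeries.coeff_single_of_ne h.ne, sub_zero]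
    · rw [h, HahnSeries.coeff_single_same, sub_self]
  refine lt_of_le_of_lt h1 ?_
  rw [← WithZero.exp_zero, WithZero.exp_lt_exp]
  norm_num

/-! ### Galois theory: elements fixed by the stabiliser of `F` lie in `F` -/

section Galois

variable {K F L Γ : Type*} [Field K] [Field F] [Field L]
    [Algebra K F] [Algebra K L] [Group Γ] [MulSemiringAction Γ L] [SMulCommClass Γ K L]

/-- An element of `L` fixed by the stabiliser `H` of `φ F` lies in `φ F`. -/
theorem exists_of_forall_smul_eq (φ : F →ₐ[K] L) (t : F)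
    (hfin : ∃ Γ' : Subgroup Γ, Γ'.FiniteIndex ∧ ∀ g ∈ Γ', ∀ x : L, g • x = x)
    (ht : ∀ g : Γ, g • φ t = φ t)
    (hfix : ∀ x : L, (∀ g : Γ, g • x = x) → x ∈ IntermediateField.adjoin K {φ t})
    (H : Subgroup Γ) (hH : ∀ g : Γ, g ∈ H ↔ ∀ x : F, g • φ x = φ x)
    (y : L) (hy : ∀ g ∈ H, g • y = y) : ∃ x : F, φ x = y := by
  letI : Algebra F L := φ.toRingHom.toAlgebra
  haveI : IsScalarTower K F L := IsScalarTower.of_algebraMap_eq (fun a => (φ.commutes a).symm)
  haveI : Finite (S24Gal.imageGroup Γ L) := S24Gal.finite_imageGroup hfin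
  have hG : IsGaloisGroup (S24Gal.imageGroup Γ L) (IntermediateField.adjoin K {t}) L :=
    S24Gal.isGaloisGroup_imageGroup t ht hfix
  have hGF : IsGaloisGroup (S24Gal.fixF Γ L F) F L :=
    IsGaloisGroup.of_isScalarTower _ (IntermediateField.adjoin K {t}) L F
  have hy' : ∀ σ : S24Gal.fixF Γ L F, σ • y = y := by
    rintro ⟨σ, hσ⟩
    obtain ⟨g, rfl⟩ := S24Gal.toImage_surjective σ
    have hgH : g ∈ H := by
      rw [← S24Gal.comap_fixF H hH]
      exact hσ
    exact hy g hgH
  exact hGF.isInvariant.isInvariant y hy'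

end Galois

/-! ### The two embeddings in `LL (r N)` -/

section Emb

variable (N r : ℕ) [NeZero N] [NeZero r]

theorem neZero_mul : NeZero (r * N) := ⟨mul_ne_zero (NeZero.ne r) (NeZero.ne N)⟩

/-- The embedding of `F_N` in `LL (r N)`. -/
def phiN : ↥(modularFunctionFieldBar N) →ₐ[Kbar] @LL (r * N) :=
  haveI := neZero_mul N r
  embHom N (r * N) (dvd_mul_left N r)

/-- The embedding of `F_{rN}` in `LL (r N)`. -/
def phiM : ↥(modularFunctionFieldBar (r * N)) →ₐ[Kbar] @LL (r * N) :=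
  haveI := neZero_mul N r
  embHom (r * N) (r * N) dvd_rfl

theorem expLL_phiN (x : ↥(modularFunctionFieldBar N)) :
    haveI := neZero_mul N r
    expLL (r * N) (phiN N r x) = qExpand Kbar (r * N) (x : LaurentSeries Kbar) := by
  haveI := neZero_mul N r
  exact expLL_embHom N (r * N) (dvd_mul_left N r) x

theorem expLL_phiM (x : ↥(modularFunctionFieldBar (r * N))) :
    haveI := neZero_mul N r
    expLL (r * N) (phiM N r x) = qExpand Kbar (r * N) (x : LaurentSeries Kbar) := by
  haveI := neZero_mul N r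
  exact expLL_embHom (r * N) (r * N) dvd_rfl x

theorem phiN_eq_phiM {x : ↥(modularFunctionFieldBar N)} {x' : ↥(modularFunctionFieldBar (r * N))}
    (h : (x : LaurentSeries Kbar) = (x' : LaurentSeries Kbar)) : phiN N r x = phiM N r x' := by
  haveI := neZero_mul N r
  apply expLL_injective (r * N)
  rw [expLL_phiN, expLL_phiM, h]

theorem phiN_jBar : phiN N r (jBar N) = jLL (r * N) := by
  haveI := neZero_mul N r
  exact embHom_jq N (r * N) (dvd_mul_left N r) (jBar N) rfl

/-- The stabiliser of `φ_N (F_N)` is `Γ₀(N)`. -/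
theorem mem_Gamma0_iff_phiN (γ : SL(2, ℤ)) :
    γ ∈ CongruenceSubgroup.Gamma0 N ↔ ∀ x, γ • phiN N r x = phiN N r x := by
  haveI := neZero_mul N r
  have hNM : N ∣ r * N := dvd_mul_left N r
  rw [mem_Gamma0_iff_forall_smul_jd]
  constructor
  · intro h x
    exact smul_eq_of_mem_genField N (r * N) hNM γ h (embHom_mem N (r * N) hNM x)
  · intro h d hdne hd
    obtain ⟨x, hx⟩ := exists_embHom_eq N (r * N) hNM (jdLL_mem_genField N (r * N) d hNM hd)
    have h1 := h x
    unfold phiN at h1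
    rw [hx] at h1
    exact (smul_jdLL_eq_iff (r * N) d (hd.trans hNM) γ).mp h1

/-- `Γ₀(r N)` fixes `φ_M (F_{rN})`. -/
theorem smul_phiM_of_mem {γ : SL(2, ℤ)} (hγ : γ ∈ CongruenceSubgroup.Gamma0 (r * N))
    (x : ↥(modularFunctionFieldBar (r * N))) : γ • phiM N r x = phiM N r x := by
  haveI := neZero_mul N r
  exact smul_eq_of_mem_genField (r * N) (r * N) dvd_rfl γ
    ((mem_Gamma0_iff_forall_smul_jd (r * N) γ).mp hγ) (embHom_mem (r * N) (r * N) dvd_rfl x)

/-- Galois descent to `F_N`. -/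
theorem exists_phiN_eq (y : @LL (r * N))
    (hy : ∀ γ ∈ CongruenceSubgroup.Gamma0 N, γ • y = y) :
    ∃ x : ↥(modularFunctionFieldBar N), phiN N r x = y := by
  haveI := neZero_mul N r
  refine exists_of_forall_smul_eq (Γ := SL(2, ℤ)) (phiN N r) (jBar N)
    (exists_finiteIndex_fixing (r * N)) ?_ ?_ (CongruenceSubgroup.Gamma0 N)
    (fun γ => mem_Gamma0_iff_phiN N r γ) y hy
  · intro g
    rw [phiN_jBar]
    exact smul_jLL (r * N) g
  · intro x hx
    rw [phiN_jBar]
    exact Fermat.Agent.S24Inv.mem_adjoin_jLL_of_invariant' (r * N) x hx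

end Emb

/-! ### The element `S T^k S⁻¹` -/

section Conj

/-- `S T^k S⁻¹ = (1 0; -k 1)`: its lower left entry. -/
theorem conjT_one_zero (k : ℤ) :
    ((ModularGroup.S * ModularGroup.T ^ k * ModularGroup.S⁻¹ : SL(2, ℤ)) : Matrix (Fin 2) (Fin 2) ℤ)
      1 0 = -k := by
  simp [Matrix.SpecialLinearGroup.coe_mul, Matrix.SpecialLinearGroup.coe_inv,
    ModularGroup.coe_T_zpow, ModularGroup.S, Matrix.adjugate_fin_two, Matrix.mul_apply,
    Fin.sum_univ_two]

theorem conjT_zpow (k i : ℤ) :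
    (ModularGroup.S * ModularGroup.T ^ k * ModularGroup.S⁻¹ : SL(2, ℤ)) ^ i
      = ModularGroup.S * ModularGroup.T ^ (k * i) * ModularGroup.S⁻¹ := by
  rw [conj_zpow, ← zpow_mul]

theorem conjT_mem_Gamma0 (N : ℕ) :
    (ModularGroup.S * ModularGroup.T ^ (N : ℤ) * ModularGroup.S⁻¹ : SL(2, ℤ)) ∈
      CongruenceSubgroup.Gamma0 N := by
  apply EmbFStab.mem_Gamma0_of_dvd
  show (N : ℤ) ∣ ((ModularGroup.S * ModularGroup.T ^ (N : ℤ) * ModularGroup.S⁻¹ : SL(2, ℤ)) :
    Matrix (Fin 2) (Fin 2) ℤ) 1 0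
  rw [conjT_one_zero]
  exact (dvd_refl _).neg_right

theorem dvd_of_conjT_zpow_mem (N r : ℕ) [NeZero N] (i : ℤ)
    (h : (ModularGroup.S * ModularGroup.T ^ (N : ℤ) * ModularGroup.S⁻¹ : SL(2, ℤ)) ^ i ∈
      CongruenceSubgroup.Gamma0 (r * N)) : (r : ℤ) ∣ i := by
  rw [conjT_zpow] at h
  have h1 := EmbFStab.dvd_of_mem_Gamma0 h
  have h2 : ((ModularGroup.S * ModularGroup.T ^ ((N : ℤ) * i) * ModularGroup.S⁻¹ : SL(2, ℤ)) :
      Matrix (Fin 2) (Fin 2) ℤ) 1 0 = -((N : ℤ) * i) := conjT_one_zero _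
  have h3 : ((r * N : ℕ) : ℤ) ∣ -((N : ℤ) * i) := by
    rw [← h2]
    exact h1
  have hN : (N : ℤ) ≠ 0 := by exact_mod_cast NeZero.ne N
  have h4 : ((N : ℤ) * r) ∣ (N : ℤ) * i := by
    have := (dvd_neg.mp h3)
    rwa [show ((r * N : ℕ) : ℤ) = (N : ℤ) * r by push_cast; ring] at this
  exact (mul_dvd_mul_iff_left hN).mp h4

end Conj

/-! ### The main theorem -/

section Main

variable (N r : ℕ) [NeZero N] [NeZero r]

theorem wInf_jLL (M : ℕ) [NeZero M] : wInf M (jLL M) = WithZero.exp (M : ℤ) := by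
  rw [wInf_apply, ← jdLL_one, expLL_jdLL, qExpand_congr (mul_one M)]
  exact laurent_valuation_qExpand_jqModC M

/-- The ring homomorphism `x ↦ γ • x` of `LL M`. -/
def smulHom (M : ℕ) (γ : SL(2, ℤ)) : @LL M →+* @LL M :=
  MulSemiringAction.toRingHom SL(2, ℤ) (@LL M) γ

theorem smulHom_apply (M : ℕ) (γ : SL(2, ℤ)) (x : @LL M) : smulHom M γ x = γ • x := rfl

/-- The valuation of `F_N` at the cusp `0`. -/
def uZero : Valuation ↥(modularFunctionFieldBar N) ℤᵐ⁰ :=
  haveI := neZero_mul N r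
  (wInf (r * N)).comap ((smulHom (r * N) ModularGroup.S⁻¹).comp (phiN N r).toRingHom)

theorem uZero_apply (x : ↥(modularFunctionFieldBar N)) :
    haveI := neZero_mul N r
    uZero N r x = wInf (r * N) (ModularGroup.S⁻¹ • phiN N r x) := rfl

theorem smul_algebraMap_LL (M : ℕ) (γ : SL(2, ℤ)) (a : Kbar) :
    γ • algebraMap Kbar (@LL M) a = algebraMap Kbar (@LL M) a := by
  rw [Algebra.algebraMap_eq_smul_one, smul_comm, smul_one]

theorem uZero_algebraMap_le (a : Kbar) :
    uZero N r (algebraMap Kbar ↥(modularFunctionFieldBar N) a) ≤ 1 := by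
  haveI := neZero_mul N r
  rw [uZero_apply, AlgHom.commutes, smul_algebraMap_LL]
  by_cases ha : a = 0
  · rw [ha, map_zero, map_zero]
    exact zero_le_one
  · rw [wInf_algebraMap _ ha]

theorem uZero_nontrivial : ∃ x : ↥(modularFunctionFieldBar N), x ≠ 0 ∧ uZero N r x ≠ 1 := by
  haveI := neZero_mul N r
  have hj : uZero N r (jBar N) = WithZero.exp ((r * N : ℕ) : ℤ) := by
    rw [uZero_apply, phiN_jBar, smul_jLL, wInf_jLL]
  refine ⟨jBar N, ?_, ?_⟩
  · intro h
    rw [h, map_zero] at hj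
    exact WithZero.exp_ne_zero hj.symm
  · rw [hj, ← WithZero.exp_zero]
    intro h
    have h1 := WithZero.exp_injective h
    have h2 : r * N = 0 := by exact_mod_cast h1
    exact NeZero.ne (r * N) h2

/-- `T^N` fixes `S⁻¹ • φ_N x`. -/
theorem T_pow_smul_S_inv_smul_phiN (x : ↥(modularFunctionFieldBar N)) :
    (ModularGroup.T ^ N) • ModularGroup.S⁻¹ • phiN N r x = ModularGroup.S⁻¹ • phiN N r x := by
  have h1 := (mem_Gamma0_iff_phiN N r _).mp (conjT_mem_Gamma0 N) x
  have h2 : (ModularGroup.T ^ N : SL(2, ℤ)) * ModularGroup.S⁻¹ =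
      ModularGroup.S⁻¹ * (ModularGroup.S * ModularGroup.T ^ (N : ℤ) * ModularGroup.S⁻¹) := by
    rw [zpow_natCast]
    group
  rw [← mul_smul, h2, mul_smul, h1]

theorem transferCore (hdeg : dedekindPsi (r * N) < 2 * r * dedekindPsi N) : TransferCore N r := by
  haveI := neZero_mul N r
  intro n hn g hg hord h hh
  set y : @LL (r * N) := phiM N r h with hy
  -- `y ^ n = φ_N g`
  have hyn : y ^ n = phiN N r g := by
    rw [hy, ← map_pow]
    symm
    apply phiN_eq_phiM
    rw [← hh]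
    rfl
  -- the element `x` with `u₀(x)^n = u₀(g)`
  obtain ⟨x, hx0, hx⟩ := exists_valuation_pow_eq (K := Kbar) (uZero N r) (uZero_algebraMap_le N r)
    (uZero_nontrivial N r) n g hg hord
  set z : @LL (r * N) := ModularGroup.S⁻¹ • y with hz
  set t : @LL (r * N) := ModularGroup.S⁻¹ • phiN N r x with ht
  have hzn : z ^ n = ModularGroup.S⁻¹ • phiN N r g := by
    rw [hz, ← smul_pow', hyn]
  have ht0 : t ≠ 0 := by
    rw [ht]
    intro h0
    have h1 : phiN N r x = 0 := by
      have := congrArg (fun v => ModularGroup.S • v) h0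
      simpa using this
    exact hx0 ((map_eq_zero_iff _ (phiN N r).toRingHom.injective).mp h1)
  have hwz : wInf (r * N) z = wInf (r * N) t := by
    have h1 : wInf (r * N) z ^ n = wInf (r * N) t ^ n := by
      rw [← map_pow, hzn, ← uZero_apply, ← hx, uZero_apply]
    have hwt0 : wInf (r * N) t ≠ 0 := (Valuation.ne_zero_iff _).mpr ht0
    have hwz0 : wInf (r * N) z ≠ 0 := by
      intro h0
      rw [h0, zero_pow hn.ne'] at h1
      exact pow_ne_zero n hwt0 h1.symm
    have h2 : WithZero.log (wInf (r * N) z ^ n) = WithZero.log (wInf (r * N) t ^ n) := by rw [h1]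
    rw [WithZero.log_pow, WithZero.log_pow] at h2
    have h3 : WithZero.log (wInf (r * N) z) = WithZero.log (wInf (r * N) t) := by
      simp only [nsmul_eq_mul] at h2
      have hn' : (n : ℤ) ≠ 0 := by exact_mod_cast hn.ne'
      exact mul_left_cancel₀ hn' h2
    rw [← WithZero.exp_log hwz0, ← WithZero.exp_log hwt0, h3]
  -- the valuation argument
  have hTz : (ModularGroup.T ^ N) • z = z := by
    have := map_eq_of_pow_eq (K := Kbar) (wInf (r * N)) (fun c hc => wInf_algebraMap (r * N) hc)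
      (wInf_residue (r * N)) (smulHom (r * N) (ModularGroup.T ^ N))
      (fun c => smul_algebraMap_LL (r * N) _ c) (fun v => wInf_T_pow_smul (r * N) N v)
      z t n hn ht0 (T_pow_smul_S_inv_smul_phiN N r x)
      (by rw [hzn]; exact T_pow_smul_S_inv_smul_phiN N r g) hwz
    exact this
  -- `S T^N S⁻¹` fixes `y`
  have hty : (ModularGroup.S * ModularGroup.T ^ (N : ℤ) * ModularGroup.S⁻¹ : SL(2, ℤ)) • y = y := by
    rw [mul_smul, mul_smul, ← hz, zpow_natCast, hTz, hz, smul_inv_smul]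
  -- the index count
  have hle : CongruenceSubgroup.Gamma0 N ≤
      MulAction.stabilizer SL(2, ℤ) y ⊓ CongruenceSubgroup.Gamma0 N := by
    have hMN : CongruenceSubgroup.Gamma0 (r * N) ≤ CongruenceSubgroup.Gamma0 N := by
      intro γ hγ
      apply EmbFStab.mem_Gamma0_of_dvd
      exact (Int.natCast_dvd_natCast.mpr (dvd_mul_left N r)).trans (EmbFStab.dvd_of_mem_Gamma0 hγ)
    refine le_of_index_lt (CongruenceSubgroup.Gamma0 (r * N)) (CongruenceSubgroup.Gamma0 N) _
      ?_ inf_le_right ?_ (ModularGroup.S * ModularGroup.T ^ (N : ℤ) * ModularGroup.S⁻¹) ?_ r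
      (fun i hi => dvd_of_conjT_zpow_mem N r i hi) ?_
    · intro γ hγ
      exact ⟨MulAction.mem_stabilizer_iff.mpr (smul_phiM_of_mem N r hγ h), hMN hγ⟩
    · have : (CongruenceSubgroup.Gamma0 (r * N)).FiniteIndex :=
        Subgroup.finiteIndex_of_le (Periods.Gamma_le_Gamma0_of_dvd (dvd_refl (r * N)))
      exact Subgroup.FiniteIndex.index_ne_zero
    · exact ⟨MulAction.mem_stabilizer_iff.mpr hty, conjT_mem_Gamma0 N⟩
    · have e1 : (CongruenceSubgroup.Gamma0 (r * N)).index = dedekindPsi (r * N) :=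
        Fermat.Agent.S20.card_cosetX (r * N)
      have e2 : (CongruenceSubgroup.Gamma0 N).index = dedekindPsi N :=
        Fermat.Agent.S20.card_cosetX N
      rw [e1, e2]
      exact hdeg
  -- Galois descent
  obtain ⟨h', hh'⟩ := exists_phiN_eq N r y (fun γ hγ =>
    MulAction.mem_stabilizer_iff.mp (hle hγ).1)
  refine ⟨h', ?_⟩
  have h1 : expLL (r * N) (phiN N r h') = expLL (r * N) (phiM N r h) := by rw [hh']
  rw [expLL_phiN, expLL_phiM] at h1
  exact qExpand_injective (r * N) h1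

end Main

end Fermat.Agent.F3T
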