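/-
Cluster A/B bridge, TRANSFER wrapper piece (W5) (helper8): the arithmetic inequality
`ψ(r N) < 2 r ψ(N)` for a prime power `r = p ^ a` (in particular `r = 2, 3, 4, 9`), which is the
hypothesis `hdeg` of `transferCore`.
-/
import Mathlib
import Fermat.Agent.S20.Cosets.Count

set_option autoImplicit false

namespace Fermat.Agent.F3T

open ModularCurve

lemma dedekindPsi_one' : dedekindPsi 1 = 1 := by
  rw [dedekindPsi, Nat.divisors_one, Finset.filter_singleton, if_pos squarefree_one,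
    Finset.sum_singleton]

lemma dedekindPsi_pos' {N : ℕ} (hN : 0 < N) : 0 < dedekindPsi N := by
  unfold dedekindPsi
  apply Finset.sum_pos'
  · intro d _
    exact Nat.zero_le _
  · refine ⟨1, ?_, ?_⟩
    · rw [Finset.mem_filter, Nat.mem_divisors]
      exact ⟨⟨one_dvd _, hN.ne'⟩, squarefree_one⟩
    · simpa using hN

/-- `ψ(p^a p^b) ≤ p^a ψ(p^b) + p^(a-1) ψ(p^b)`-type bound at a prime power, in the form needed. -/
lemma dedekindPsi_prime_pow_add_lt {p : ℕ} (hp : p.Prime) {a : ℕ} (ha : 0 < a) (b : ℕ) :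
    dedekindPsi (p ^ (a + b)) < 2 * p ^ a * dedekindPsi (p ^ b) := by
  obtain ⟨a', rfl⟩ : ∃ a', a = a' + 1 := ⟨a - 1, by omega⟩
  have hp1 : 1 < p := hp.one_lt
  have hpa : 0 < p ^ a' := pow_pos hp.pos _
  rcases Nat.eq_zero_or_pos b with rfl | hb
  · rw [add_zero, pow_zero, dedekindPsi_one', Fermat.Agent.S20.dedekindPsi_prime_pow hp, pow_succ]
    nlinarith
  · obtain ⟨b', rfl⟩ : ∃ b', b = b' + 1 := ⟨b - 1, by omega⟩
    rw [show a' + 1 + (b' + 1) = (a' + 1 + b') + 1 by ring,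
      Fermat.Agent.S20.dedekindPsi_prime_pow hp, Fermat.Agent.S20.dedekindPsi_prime_pow hp]
    have hpb : 0 < p ^ b' := pow_pos hp.pos _
    have e1 : p ^ (a' + 1 + b' + 1) = p ^ (a' + 1) * p ^ (b' + 1) := by ring
    have e2 : p ^ (a' + 1 + b') = p ^ (a' + 1) * p ^ b' := by ring
    rw [e1, e2]
    have h3 : 0 < p ^ (a' + 1) * (p ^ (b' + 1) + p ^ b') := by positivity
    nlinarith

/-- **(W5)** `ψ(p^a N) < 2 p^a ψ(N)` for a prime `p`, `a > 0` and `N > 0`. -/
theorem dedekindPsi_prime_pow_mul_lt {p : ℕ} (hp : p.Prime) {a : ℕ} (ha : 0 < a) {N : ℕ}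
    (hN : 0 < N) : dedekindPsi (p ^ a * N) < 2 * p ^ a * dedekindPsi N := by
  obtain ⟨b, M, hpM, rfl⟩ := Nat.exists_eq_pow_mul_and_not_dvd hN.ne' p hp.ne_one
  have hcop : ∀ k : ℕ, (p ^ k).Coprime M := fun k =>
    Nat.Coprime.pow_left k ((Nat.Prime.coprime_iff_not_dvd hp).mpr hpM)
  have hM : 0 < M := by
    rcases Nat.eq_zero_or_pos M with rfl | h
    · simp at hN
    · exact h
  rw [← mul_assoc, ← pow_add, Fermat.Agent.S20.dedekindPsi_mul (hcop (a + b)),
    Fermat.Agent.S20.dedekindPsi_mul (hcop b), ← mul_assoc]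
  exact Nat.mul_lt_mul_of_pos_right (dedekindPsi_prime_pow_add_lt hp ha b) (dedekindPsi_pos' hM)

theorem dedekindPsi_two_mul_lt {N : ℕ} (hN : 0 < N) :
    dedekindPsi (2 * N) < 2 * 2 * dedekindPsi N := by
  simpa using dedekindPsi_prime_pow_mul_lt Nat.prime_two (a := 1) one_pos hN

theorem dedekindPsi_three_mul_lt {N : ℕ} (hN : 0 < N) :
    dedekindPsi (3 * N) < 2 * 3 * dedekindPsi N := by
  simpa using dedekindPsi_prime_pow_mul_lt Nat.prime_three (a := 1) one_pos hN

theorem dedekindPsi_four_mul_lt {N : ℕ} (hN : 0 < N) :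
    dedekindPsi (4 * N) < 2 * 4 * dedekindPsi N := by
  have := dedekindPsi_prime_pow_mul_lt Nat.prime_two (a := 2) (by norm_num) hN
  norm_num at this
  exact this

theorem dedekindPsi_nine_mul_lt {N : ℕ} (hN : 0 < N) :
    dedekindPsi (9 * N) < 2 * 9 * dedekindPsi N := by
  have := dedekindPsi_prime_pow_mul_lt Nat.prime_three (a := 2) (by norm_num) hN
  norm_num at this
  exact this

end Fermat.Agent.F3T
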