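/-
Cluster A/B bridge, chain step (3) TRANSFER: the wrapper (W1)-(W4), (W6).

* (W1) `bar_le`, `inclBar`, `inclBar_isIntegral`: `F_N ⊆ F_M` for `N ∣ M`, integral.
* (W2) `dvd_ord_inclBar`: divisibility of divisors is preserved by the inclusion.
* (W3) `gaussSub_mono`, `gaussResFun_mono`: the Gauss ring and its residue map are compatible.
* (W4) `keyLemmaAt_of_mul`: `TransferCore N r` and `KeyLemmaAt (r * N)` give the KEY LEMMA at
  level `N` for the primes not dividing `r * N * n`.
* (W6) `keyLemmaAt_of_aux`: KEY LEMMA at two auxiliary levels `r₁ N`, `r₂ N` with coprime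
  `r₁, r₂` gives the KEY LEMMA at level `N`.
-/
import Mathlib
import Fermat.Agent.F3.Transfer.Defs
import Fermat.Agent.Lib.GaussInt.Interface
import Fermat.Agent.S24.GlobalDatum
import Fermat.Prelude.Def_AlgebraicCurve_Correspondence

set_option autoImplicit false

noncomputable section

namespace Fermat.Agent.F3T

open ModularCurve AlgebraicCurve Fermat.Agent.GaussInt

/-! ### (W1) the inclusion -/

/-- an inclusion of intermediate fields `E ≤ E'` is integral as soon as `E'` is finite over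
`K(j)` for some `j ∈ E`. -/
theorem inclusion_isIntegral_of_finite {K L : Type*} [Field K] [Field L] [Algebra K L]
    {E E' : IntermediateField K L} (h : E ≤ E') (j : E)
    (hfin : FiniteDimensional
      (IntermediateField.adjoin K {(IntermediateField.inclusion h j : E')}) E') :
    (IntermediateField.inclusion h).toRingHom.IsIntegral := by
  intro x
  have hx : IsIntegral (IntermediateField.adjoin K {(IntermediateField.inclusion h j : E')}) x :=
    IsIntegral.of_finite _ x
  obtain ⟨p, hp, hpx⟩ := hx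
  -- the range of the inclusion contains `K(j')`
  have hle : IntermediateField.adjoin K {(IntermediateField.inclusion h j : E')} ≤
      (IntermediateField.inclusion h).fieldRange := by
    rw [IntermediateField.adjoin_le_iff]
    rintro _ rfl
    exact ⟨j, rfl⟩
  have hlift : p.map (algebraMap _ E') ∈
      Polynomial.lifts (IntermediateField.inclusion h).toRingHom := by
    rw [Polynomial.lifts_iff_coeff_lifts]
    intro n
    rw [Polynomial.coeff_map]
    obtain ⟨e, he⟩ := hle (p.coeff n).2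
    exact ⟨e, he⟩
  obtain ⟨q, hq, -, hqm⟩ := Polynomial.lifts_and_degree_eq_and_monic hlift (hp.map _)
  refine ⟨q, hqm, ?_⟩
  rw [Polynomial.eval₂_eq_eval_map, hq, Polynomial.eval_map]
  exact hpx

/-- (W1) `F_N ⊆ F_M` for `N ∣ M`. -/
theorem bar_le {N M : ℕ} [NeZero N] [NeZero M] (h : N ∣ M) :
    modularFunctionFieldBar N ≤ modularFunctionFieldBar M := by
  show laurentBaseChange _ _ ≤ laurentBaseChange _ _
  rw [laurentBaseChange, IntermediateField.adjoin_le_iff]
  rintro _ ⟨y, hy, rfl⟩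
  exact coeffEmb_mem_laurentBaseChange _ (full_degeneracy_le h hy)

/-- the inclusion `F_N → F_M`. -/
def inclBar {N M : ℕ} [NeZero N] [NeZero M] (h : N ∣ M) :
    modularFunctionFieldBar N →ₐ[AlgebraicClosure ℚ] modularFunctionFieldBar M :=
  IntermediateField.inclusion (bar_le h)

@[simp]
theorem coe_inclBar {N M : ℕ} [NeZero N] [NeZero M] (h : N ∣ M) (x : modularFunctionFieldBar N) :
    (inclBar h x : LaurentSeries (AlgebraicClosure ℚ)) = (x : LaurentSeries (AlgebraicClosure ℚ)) :=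
  IntermediateField.coe_inclusion _ x

theorem inclBar_jBar {N M : ℕ} [NeZero N] [NeZero M] (h : N ∣ M) :
    inclBar h (Fermat.Agent.S24.jBar N) = Fermat.Agent.S24.jBar M :=
  Subtype.ext rfl

set_option synthInstance.maxHeartbeats 400000 in
/-- the inclusion `F_N → F_M` is integral. -/
theorem inclBar_isIntegral {N M : ℕ} [NeZero N] [NeZero M] (h : N ∣ M) :
    (inclBar h).toRingHom.IsIntegral := by
  refine inclusion_isIntegral_of_finite (bar_le h) (Fermat.Agent.S24.jBar N) ?_
  have h1 : (IntermediateField.inclusion (bar_le h) (Fermat.Agent.S24.jBar N) :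
      modularFunctionFieldBar M) = Fermat.Agent.S24.jBar M := inclBar_jBar h
  rw [h1]
  exact Fermat.Agent.S24.finiteDimensional_adjoin_jBar M

/-! ### (W2) divisors -/

/-- (W2) if `n` divides the divisor of `g` on `F_N`, it divides the divisor of `g` on `F_M`. -/
theorem dvd_ord_inclBar {N M : ℕ} [NeZero N] [NeZero M] (h : N ∣ M) (n : ℕ)
    (g : modularFunctionFieldBar N)
    (hg : ∀ P : Place (AlgebraicClosure ℚ) (modularFunctionFieldBar N), (n : ℤ) ∣ P.ord g)
    (P' : Place (AlgebraicClosure ℚ) (modularFunctionFieldBar M)) :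
    (n : ℤ) ∣ P'.ord (inclBar h g) := by
  rw [Place.ord_restrictAlong (inclBar h) (inclBar_isIntegral h) P' g]
  exact Dvd.dvd.mul_left (hg _) _


/-! ### (W3) Gauss rings -/

section Gauss

variable {K : Type*} [Field K] {A : ValuationSubring K}

theorem IsPres.mono {F F' : IntermediateField K (LaurentSeries K)} (h : F ≤ F')
    {f : LaurentSeries K} {Y₁ Y₂ : LaurentSeries A} (hp : IsPres A F f Y₁ Y₂) :
    IsPres A F' f Y₁ Y₂ :=
  ⟨h hp.mem₁, h hp.mem₂, hp.prim, hp.eq⟩

/-- (W3) the Gauss ring is monotone in the field. -/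
theorem gaussSub_mono {F F' : IntermediateField K (LaurentSeries K)} (h : F ≤ F') :
    gaussSub A F ≤ gaussSub A F' := by
  rintro f ⟨Y₁, Y₂, hp⟩
  exact ⟨Y₁, Y₂, IsPres.mono h hp⟩

/-- (W3) the residue map does not depend on the field. -/
theorem gaussResFun_mono {F F' : IntermediateField K (LaurentSeries K)} (h : F ≤ F')
    {f : LaurentSeries K} (hf : f ∈ gaussSub A F) : gaussResFun A F' f = gaussResFun A F f := by
  obtain ⟨Y₁, Y₂, hp⟩ := hf
  rw [gaussResFun_eq hp, gaussResFun_eq (IsPres.mono h hp)]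

end Gauss


/-! ### (W4) transfer of the KEY LEMMA -/

/-- the KEY LEMMA at level `N` for one prime `ℓ`. -/
def KeyLemmaAtPrime (N ℓ : ℕ) [NeZero N] : Prop :=
  ∀ (n : ℕ), ℓ.Prime → ¬ ℓ ∣ N * n →
    ∀ A : ValuationSubring (AlgebraicClosure ℚ), A.LiesOverPrime ℓ →
      ∀ g : modularFunctionFieldBar N, g ≠ 0 →
        (∀ P : Place (AlgebraicClosure ℚ) (modularFunctionFieldBar N), (n : ℤ) ∣ P.ord g) →
        (g : LaurentSeries (AlgebraicClosure ℚ)) ∈ gaussSub A (modularFunctionFieldBar N) →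
        gaussResFun A (modularFunctionFieldBar N) (g : LaurentSeries (AlgebraicClosure ℚ)) = 1 →
        ∃ h : modularFunctionFieldBar N, h ^ n = g

theorem keyLemmaAt_iff_forall_prime (N : ℕ) [NeZero N] :
    KeyLemmaAt N ↔ ∀ ℓ, KeyLemmaAtPrime N ℓ :=
  ⟨fun h ℓ n => h n ℓ, fun h n ℓ => h ℓ n⟩

/-- (W4) `TransferCore N r` and `KeyLemmaAt (r * N)` give the KEY LEMMA at level `N` for all
primes `ℓ ∤ r`. -/
theorem keyLemmaAt_of_mul (N r : ℕ) [NeZero N] [NeZero r] (hc : TransferCore N r)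
    (hK : KeyLemmaAt (r * N)) :
    ∀ (n ℓ : ℕ), ℓ.Prime → ¬ ℓ ∣ (r * N) * n →
      ∀ A : ValuationSubring (AlgebraicClosure ℚ), A.LiesOverPrime ℓ →
        ∀ g : modularFunctionFieldBar N, g ≠ 0 →
          (∀ P : Place (AlgebraicClosure ℚ) (modularFunctionFieldBar N), (n : ℤ) ∣ P.ord g) →
          (g : LaurentSeries (AlgebraicClosure ℚ)) ∈ gaussSub A (modularFunctionFieldBar N) →
          gaussResFun A (modularFunctionFieldBar N) (g : LaurentSeries (AlgebraicClosure ℚ)) = 1 →
          ∃ h : modularFunctionFieldBar N, h ^ n = g := by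
  intro n ℓ hℓ hdvd A hA g hg0 hgdiv hgmem hgres
  have hNM : N ∣ r * N := dvd_mul_left N r
  have hn : 0 < n := by
    rcases Nat.eq_zero_or_pos n with rfl | h
    · exact absurd (dvd_zero ℓ) hdvd
    · exact h
  have hle := bar_le hNM
  have hg0' : inclBar hNM g ≠ 0 := (map_ne_zero (inclBar hNM)).mpr hg0
  have hmem' : ((inclBar hNM g : modularFunctionFieldBar (r * N)) :
      LaurentSeries (AlgebraicClosure ℚ)) ∈ gaussSub A (modularFunctionFieldBar (r * N)) := by
    rw [coe_inclBar]; exact gaussSub_mono hle hgmem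
  have hres' : gaussResFun A (modularFunctionFieldBar (r * N))
      ((inclBar hNM g : modularFunctionFieldBar (r * N)) :
        LaurentSeries (AlgebraicClosure ℚ)) = 1 := by
    rw [coe_inclBar, gaussResFun_mono hle hgmem]; exact hgres
  obtain ⟨h, hh⟩ := hK n ℓ hℓ hdvd A hA (inclBar hNM g) hg0' (dvd_ord_inclBar hNM n g hgdiv)
    hmem' hres'
  have hh' : (h : LaurentSeries (AlgebraicClosure ℚ)) ^ n =
      (g : LaurentSeries (AlgebraicClosure ℚ)) := by
    have := congrArg (Subtype.val) hh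
    rw [coe_inclBar] at this
    rw [← this]
    exact (IntermediateField.coe_pow _ h n).symm
  obtain ⟨h', hh'eq⟩ := hc n hn g hg0 hgdiv h hh'
  refine ⟨h', Subtype.ext ?_⟩
  rw [← hh', ← hh'eq]
  exact IntermediateField.coe_pow _ h' n

/-! ### (W6) two auxiliary levels -/

/-- (W6) the KEY LEMMA at two auxiliary levels `r₁ * N`, `r₂ * N` with coprime `r₁`, `r₂` gives
the KEY LEMMA at level `N`. -/
theorem keyLemmaAt_of_aux (N r₁ r₂ : ℕ) [NeZero N] [NeZero r₁] [NeZero r₂]
    (hcop : Nat.Coprime r₁ r₂) (hc₁ : TransferCore N r₁) (hc₂ : TransferCore N r₂)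
    (hK₁ : KeyLemmaAt (r₁ * N)) (hK₂ : KeyLemmaAt (r₂ * N)) : KeyLemmaAt N := by
  intro n ℓ hℓ hdvd A hA g hg0 hgdiv hgmem hgres
  by_cases h1 : ℓ ∣ r₁
  · -- then `ℓ ∤ r₂`
    have h2 : ¬ ℓ ∣ r₂ := fun h2 => by
      have := Nat.dvd_gcd h1 h2
      rw [hcop.gcd_eq_one] at this
      exact hℓ.one_lt.ne' (Nat.dvd_one.mp this)
    refine keyLemmaAt_of_mul N r₂ hc₂ hK₂ n ℓ hℓ ?_ A hA g hg0 hgdiv hgmem hgres
    rw [mul_assoc]
    intro h
    rcases (Nat.Prime.dvd_mul hℓ).mp h with h | h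
    · exact h2 h
    · exact hdvd h
  · refine keyLemmaAt_of_mul N r₁ hc₁ hK₁ n ℓ hℓ ?_ A hA g hg0 hgdiv hgmem hgres
    rw [mul_assoc]
    intro h
    rcases (Nat.Prime.dvd_mul hℓ).mp h with h | h
    · exact h1 h
    · exact hdvd h

/-- (W6), `r₁ = 4`, `r₂ = 9`. -/
theorem keyLemmaAt_of_four_nine (N : ℕ) [NeZero N]
    (hc₁ : TransferCore N 4) (hc₂ : TransferCore N 9)
    (hK₁ : KeyLemmaAt (4 * N)) (hK₂ : KeyLemmaAt (9 * N)) : KeyLemmaAt N :=
  keyLemmaAt_of_aux N 4 9 (by norm_num) hc₁ hc₂ hK₁ hK₂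

/-- (W6), `r₁ = 2`, `r₂ = 3`. -/
theorem keyLemmaAt_of_two_three (N : ℕ) [NeZero N]
    (hc₁ : TransferCore N 2) (hc₂ : TransferCore N 3)
    (hK₁ : KeyLemmaAt (2 * N)) (hK₂ : KeyLemmaAt (3 * N)) : KeyLemmaAt N :=
  keyLemmaAt_of_aux N 2 3 (by norm_num) hc₁ hc₂ hK₁ hK₂

end Fermat.Agent.F3T

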