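/-
Cluster A/B bridge, chain step (3) TRANSFER: final statements.

`keyLemmaAt_of_four_nine'` : `KeyLemmaAt (4 * N) → KeyLemmaAt (9 * N) → KeyLemmaAt N`,
`keyLemmaAt_of_two_three'` : `KeyLemmaAt (2 * N) → KeyLemmaAt (3 * N) → KeyLemmaAt N`.
-/
import Mathlib
import Fermat.Agent.F3.Transfer.Wrap
import Fermat.Agent.F3.Transfer.Core
import Fermat.Agent.F3.Transfer.PsiBound

set_option autoImplicit false

noncomputable section

namespace Fermat.Agent.F3T

open ModularCurve AlgebraicCurve Fermat.Agent.GaussInt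

theorem transferCore_two (N : ℕ) [NeZero N] : TransferCore N 2 :=
  transferCore N 2 (dedekindPsi_two_mul_lt (Nat.pos_of_ne_zero (NeZero.ne N)))

theorem transferCore_three (N : ℕ) [NeZero N] : TransferCore N 3 :=
  transferCore N 3 (dedekindPsi_three_mul_lt (Nat.pos_of_ne_zero (NeZero.ne N)))

theorem transferCore_four (N : ℕ) [NeZero N] : TransferCore N 4 :=
  transferCore N 4 (dedekindPsi_four_mul_lt (Nat.pos_of_ne_zero (NeZero.ne N)))

theorem transferCore_nine (N : ℕ) [NeZero N] : TransferCore N 9 :=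
  transferCore N 9 (dedekindPsi_nine_mul_lt (Nat.pos_of_ne_zero (NeZero.ne N)))

/-- the KEY LEMMA at the auxiliary levels `4 N` and `9 N` gives the KEY LEMMA at level `N`. -/
theorem keyLemmaAt_of_four_nine' (N : ℕ) [NeZero N]
    (hK₁ : KeyLemmaAt (4 * N)) (hK₂ : KeyLemmaAt (9 * N)) : KeyLemmaAt N :=
  keyLemmaAt_of_four_nine N (transferCore_four N) (transferCore_nine N) hK₁ hK₂

/-- the KEY LEMMA at the auxiliary levels `2 N` and `3 N` gives the KEY LEMMA at level `N`. -/
theorem keyLemmaAt_of_two_three' (N : ℕ) [NeZero N]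
    (hK₁ : KeyLemmaAt (2 * N)) (hK₂ : KeyLemmaAt (3 * N)) : KeyLemmaAt N :=
  keyLemmaAt_of_two_three N (transferCore_two N) (transferCore_three N) hK₁ hK₂

end Fermat.Agent.F3T
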