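/-
Cluster A/B bridge, chain step (3) TRANSFER: per-prime versions.

`KeyLemmaAtPrime N ℓ` (defined in `Wrap.lean`) is the KEY LEMMA at level `N` for the single
prime `ℓ`.  `keyLemmaAtPrime_of_mul`: for `ℓ ∤ r`, `KeyLemmaAtPrime (r * N) ℓ → KeyLemmaAtPrime N ℓ`.
-/
import Mathlib
import Fermat.Agent.F3.Transfer.Final

set_option autoImplicit false

noncomputable section

namespace Fermat.Agent.F3T

open ModularCurve AlgebraicCurve Fermat.Agent.GaussInt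

/-- per-prime transfer: for `ℓ ∤ r`, the KEY LEMMA at level `r * N` and the prime `ℓ` gives the
KEY LEMMA at level `N` and the prime `ℓ`. -/
theorem keyLemmaAtPrime_of_mul' (N r ℓ : ℕ) [NeZero N] [NeZero r] (hc : TransferCore N r)
    (hℓr : ¬ ℓ ∣ r) (hK : KeyLemmaAtPrime (r * N) ℓ) : KeyLemmaAtPrime N ℓ := by
  intro n hℓ hdvd A hA g hg0 hgdiv hgmem hgres
  have hNM : N ∣ r * N := dvd_mul_left N r
  have hdvd' : ¬ ℓ ∣ (r * N) * n := by
    rw [mul_assoc]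
    intro h
    rcases (Nat.Prime.dvd_mul hℓ).mp h with h | h
    · exact hℓr h
    · exact hdvd h
  have hn : 0 < n := by
    rcases Nat.eq_zero_or_pos n with rfl | h
    · exact absurd (dvd_zero ℓ) hdvd
    · exact h
  have hle := bar_le hNM
  have hg0' : inclBar hNM g ≠ 0 := (map_ne_zero (inclBar hNM)).mpr hg0
  have hmem' : ((inclBar hNM g : modularFunctionFieldBar (r * N)) :
      LaurentSeries (AlgebraicClosure ℚ)) ∈ gaussSub A (modularFunctionFieldBar (r * N)) := by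
    rw [coe_inclBar]; exact gaussSub_mono hle hgmem
  have hres' : gaussResFun A (modularFunctionFieldBar (r * N))
      ((inclBar hNM g : modularFunctionFieldBar (r * N)) :
        LaurentSeries (AlgebraicClosure ℚ)) = 1 := by
    rw [coe_inclBar, gaussResFun_mono hle hgmem]; exact hgres
  obtain ⟨h, hh⟩ := hK n hℓ hdvd' A hA (inclBar hNM g) hg0' (dvd_ord_inclBar hNM n g hgdiv)
    hmem' hres'
  have hh' : (h : LaurentSeries (AlgebraicClosure ℚ)) ^ n =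
      (g : LaurentSeries (AlgebraicClosure ℚ)) := by
    have := congrArg (Subtype.val) hh
    rw [coe_inclBar] at this
    rw [← this]
    exact (IntermediateField.coe_pow _ h n).symm
  obtain ⟨h', hh'eq⟩ := hc n hn g hg0 hgdiv h hh'
  refine ⟨h', Subtype.ext ?_⟩
  rw [← hh', ← hh'eq]
  exact IntermediateField.coe_pow _ h' n

/-- `ℓ ≠ 2`: transfer from level `2 N`. -/
theorem keyLemmaAtPrime_of_two_mul (N ℓ : ℕ) [NeZero N] (hℓ : ℓ.Prime) (h2 : ℓ ≠ 2)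
    (hK : KeyLemmaAtPrime (2 * N) ℓ) : KeyLemmaAtPrime N ℓ :=
  keyLemmaAtPrime_of_mul' N 2 ℓ (transferCore_two N)
    (fun h => h2 ((Nat.prime_dvd_prime_iff_eq hℓ Nat.prime_two).mp h)) hK

/-- `ℓ ≠ 3`: transfer from level `3 N`. -/
theorem keyLemmaAtPrime_of_three_mul (N ℓ : ℕ) [NeZero N] (hℓ : ℓ.Prime) (h3 : ℓ ≠ 3)
    (hK : KeyLemmaAtPrime (3 * N) ℓ) : KeyLemmaAtPrime N ℓ :=
  keyLemmaAtPrime_of_mul' N 3 ℓ (transferCore_three N)
    (fun h => h3 ((Nat.prime_dvd_prime_iff_eq hℓ Nat.prime_three).mp h)) hK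

/-- `ℓ ≠ 2`: transfer from level `4 N`. -/
theorem keyLemmaAtPrime_of_four_mul (N ℓ : ℕ) [NeZero N] (hℓ : ℓ.Prime) (h2 : ℓ ≠ 2)
    (hK : KeyLemmaAtPrime (4 * N) ℓ) : KeyLemmaAtPrime N ℓ :=
  keyLemmaAtPrime_of_mul' N 4 ℓ (transferCore_four N)
    (fun h => h2 ((Nat.prime_dvd_prime_iff_eq hℓ Nat.prime_two).mp
      (hℓ.dvd_of_dvd_pow (show ℓ ∣ 2 ^ 2 by simpa using h)))) hK

/-- `ℓ ≠ 3`: transfer from level `9 N`. -/
theorem keyLemmaAtPrime_of_nine_mul (N ℓ : ℕ) [NeZero N] (hℓ : ℓ.Prime) (h3 : ℓ ≠ 3)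
    (hK : KeyLemmaAtPrime (9 * N) ℓ) : KeyLemmaAtPrime N ℓ :=
  keyLemmaAtPrime_of_mul' N 9 ℓ (transferCore_nine N)
    (fun h => h3 ((Nat.prime_dvd_prime_iff_eq hℓ Nat.prime_three).mp
      (hℓ.dvd_of_dvd_pow (show ℓ ∣ 3 ^ 2 by simpa using h)))) hK

/-- the KEY LEMMA at level `N` from: all primes `ℓ ≥ 5` at level `N`, the prime `2` at level
`3 * N` and the prime `3` at level `2 * N`. -/
theorem keyLemmaAt_of_small (N : ℕ) [NeZero N]
    (h5 : ∀ ℓ, ℓ.Prime → 5 ≤ ℓ → KeyLemmaAtPrime N ℓ)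
    (h2 : KeyLemmaAtPrime (3 * N) 2) (h3 : KeyLemmaAtPrime (2 * N) 3) : KeyLemmaAt N := by
  rw [keyLemmaAt_iff_forall_prime]
  intro ℓ n hℓ
  by_cases hl2 : ℓ = 2
  · subst hl2
    exact keyLemmaAtPrime_of_three_mul N 2 hℓ (by norm_num) h2 n hℓ
  by_cases hl3 : ℓ = 3
  · subst hl3
    exact keyLemmaAtPrime_of_two_mul N 3 hℓ (by norm_num) h3 n hℓ
  have h5' : 5 ≤ ℓ := by
    have h2' := hℓ.two_le
    rcases Nat.lt_or_ge ℓ 5 with h | h
    · interval_cases ℓ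
      · exact absurd rfl hl2
      · exact absurd rfl hl3
      · exact absurd hℓ (by norm_num)
    · exact h
  exact h5 ℓ hℓ h5' n hℓ

end Fermat.Agent.F3T
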